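import Mathlib
import Fermat.Agent.BR.S0.SmoothModel
import Fermat.Prelude.Def_AlgebraicCurve_DivisorPushPull

/-!
# Program C, node A6 (COVER-SMOOTH), part A6-MODEL: the data of a cover at a point

`F'' / F'` a finite extension of function fields over `K`, `C' ⊆ F'` a global normal model at a
level with a smooth point `(O', res', Q)` (`SmoothModel`, `BR/S0/SmoothModel`), `C'' ⊆ F''` a
normal model of the cover, `(O'', res'')` a component of the cover over `(O', res')` and `Q''` a
point of it over `Q`.  The cover is presented near the point by one generator `U ∈ C''`, a root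
of a monic `Ψ ∈ C'[X]`, with `Ψ'(U) · C'' ⊆ C'[U]` (`cond`; true for `C''` the integral closure of
`C'` in `F'' = F'(U)`, `Ψ` the minimal polynomial, by the trace-dual computation), whose reduction
takes at `Q''` a rational value `π c₀` which is a simple root (`simple`: `Ψ'(U)` does not vanish
at `Q''`).

This file: the structure `CoverPoint`, the tube `coverTube`, the maps `incC : C' → C''`,
`ev : C'[X] → C''` (`a ↦ a(U)`), `red'' : C'' → Ft''` and the elementary facts: reductions of
polynomial values, `regular`.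
-/

set_option autoImplicit false

namespace Fermat.Agent.BR3.CoverSmooth

open AlgebraicCurve IsLocalRing Polynomial Fermat.Agent.Red Fermat.Agent.X0 Fermat.Agent.BR
  Fermat.Agent.BR.Centre Fermat.Agent.BR.S0

/-! ### general lemmas on places -/

section General

variable {k Ft : Type*} [Field k] [Field Ft] [Algebra k Ft]

theorem mem_iff_le_one {Q : Place k Ft} {f : Ft} :
    f ∈ Q.toValuationSubring ↔ Q.adicValuation f ≤ 1 := by
  rw [Place.mem_iff_ord_nonneg, Q.adicValuation_le_one_iff]
  constructor
  · exact fun h => Or.inr h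
  · rintro (rfl | h)
    · rw [Place.ord_zero]
    · exact h

theorem lt_one_iff_inv_notMem {Q : Place k Ft} {f : Ft} (hf : f ≠ 0) :
    Q.adicValuation f < 1 ↔ f⁻¹ ∉ Q.toValuationSubring := by
  have h0 : Q.adicValuation f ≠ 0 := (Valuation.ne_zero_iff _).mpr hf
  rw [mem_iff_le_one, map_inv₀, not_le, one_lt_inv₀ (zero_lt_iff.mpr h0)]

variable {k₂ Ft₂ : Type*} [Field k₂] [Field Ft₂] [Algebra k₂ Ft₂]

/-- A field homomorphism compatible with two valuation rings is compatible with the maximal
ideals. -/
theorem lt_one_iff_of_mem_iff {Q : Place k Ft} {Q₂ : Place k₂ Ft₂} (φ : Ft →+* Ft₂)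
    (h : ∀ g : Ft, φ g ∈ Q₂.toValuationSubring ↔ g ∈ Q.toValuationSubring) (g : Ft) :
    Q₂.adicValuation (φ g) < 1 ↔ Q.adicValuation g < 1 := by
  rcases eq_or_ne g 0 with rfl | hg
  · simp
  · have hφ : φ g ≠ 0 := (map_ne_zero φ).mpr hg
    rw [lt_one_iff_inv_notMem hg, lt_one_iff_inv_notMem hφ, ← map_inv₀, h]

theorem le_one_iff_of_mem_iff {Q : Place k Ft} {Q₂ : Place k₂ Ft₂} (φ : Ft →+* Ft₂)
    (h : ∀ g : Ft, φ g ∈ Q₂.toValuationSubring ↔ g ∈ Q.toValuationSubring) (g : Ft) :
    Q₂.adicValuation (φ g) ≤ 1 ↔ Q.adicValuation g ≤ 1 := by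
  rw [← mem_iff_le_one, ← mem_iff_le_one, h]

/-- The value of a polynomial lies in a subring containing the coefficients and the point. -/
theorem eval₂_mem_subring {R S : Type*} [CommRing R] [CommRing S] (f : R →+* S) (T : Subring S)
    {u : S} (hf : ∀ r, f r ∈ T) (hu : u ∈ T) (p : Polynomial R) : p.eval₂ f u ∈ T := by
  rw [Polynomial.eval₂_eq_sum, Polynomial.sum_def]
  exact T.sum_mem fun i _ => T.mul_mem (hf _) (T.pow_mem hu _)

end General

variable {K F' F'' k : Type*} [Field K] [Field F'] [Field F''] [Algebra K F'] [Algebra K F'']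
  [Algebra F' F''] [IsScalarTower K F' F''] [Algebra.IsIntegral F' F''] [Field k]
  {Ft' Ft'' : Type*} [Field Ft'] [Field Ft''] [Algebra k Ft'] [Algebra k Ft'']
  [Algebra Ft' Ft''] [IsScalarTower k Ft' Ft'']

/-- The values at the restriction of a place. -/
theorem isValueAt_restrict_iff (P'' : Place K F'') (y : F') (c : K) :
    IsValueAt (P''.restrict F') y c ↔ IsValueAt P'' (algebraMap F' F'' y) c := by
  unfold IsValueAt
  rw [← lt_one_iff_of_mem_iff (Q := P''.restrict F') (Q₂ := P'') (algebraMap F' F'')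
    (fun g => (Place.mem_restrict_iff (w := P'')).symm), map_sub,
    ← IsScalarTower.algebraMap_apply]

/-- The coefficient embedding `C' → F''`. -/
def incl (C' : Subring F') : C' →+* F'' := (algebraMap F' F'').comp C'.subtype

/-- **The data of a cover at a point.** -/
structure CoverPoint (A : ValuationSubring K) (π : A →+* k)
    (O' : ValuationSubring F') (res' : O' →+* Ft') (Q : Place k Ft')
    (O'' : ValuationSubring F'') (res'' : O'' →+* Ft'') (Q'' : Place k Ft'')
    (C' : Subring F') (C'' : Subring F'') (U : F'') (Ψ : Polynomial C') (c₀ : A) : Prop where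
  noeth : IsNoetherianRing C''
  intClosed : IsIntegrallyClosed C''
  le : ∀ x ∈ C'', x ∈ O''
  map_mem_O : ∀ y : F', y ∈ O' → algebraMap F' F'' y ∈ O''
  res_map : ∀ (y : F') (hy : y ∈ O'),
    res'' ⟨algebraMap F' F'' y, map_mem_O y hy⟩ = algebraMap Ft' Ft'' (res' ⟨y, hy⟩)
  map_mem_C : ∀ y : F', y ∈ C' → algebraMap F' F'' y ∈ C''
  lies : ∀ g : Ft', algebraMap Ft' Ft'' g ∈ Q''.toValuationSubring ↔ g ∈ Q.toValuationSubring
  U_mem : U ∈ C''
  monic : Ψ.Monic
  root : Ψ.eval₂ (incl C') U = 0
  cond : ∀ x ∈ C'', ∃ a : Polynomial C', (derivative Ψ).eval₂ (incl C') U * x = a.eval₂ (incl C') U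
  c₀_mem : algebraMap K F' (c₀ : K) ∈ C'
  value : Q''.adicValuation (res'' ⟨U, le U U_mem⟩ - algebraMap k Ft'' (π c₀)) < 1
  simple : ∀ h : (derivative Ψ).eval₂ (incl C') U ∈ O'',
    ¬ Q''.adicValuation (res'' ⟨(derivative Ψ).eval₂ (incl C') U, h⟩) < 1
  inv_const : ∀ a : A, algebraMap K F' (a : K) ∈ C' → π a ≠ 0 → algebraMap K F' ((a : K)⁻¹) ∈ C'

/-- The tube of the point of the cover: the places over the tube of the base point at which the
generator `U` reduces to `π c₀`. -/
def coverTube (A : ValuationSubring K) (T' : Set (Place K F')) (U : F'') (c₀ : A) :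
    Set (Place K F'') :=
  {P'' | P''.restrict F' ∈ T' ∧ ∃ c : K, IsValueAt P'' U c ∧ A.valuation (c - (c₀ : K)) < 1}

namespace CoverPoint

variable {A : ValuationSubring K} {π : A →+* k}
  {O' : ValuationSubring F'} {res' : O' →+* Ft'} {Q : Place k Ft'} {T' : Set (Place K F')}
  {t : F'} {C' : Subring F'} {ϖ : K}
  {O'' : ValuationSubring F''} {res'' : O'' →+* Ft''} {Q'' : Place k Ft''}
  {C'' : Subring F''} {U : F''} {Ψ : Polynomial C'} {c₀ : A}

section Maps

variable (H : CoverPoint A π O' res' Q O'' res'' Q'' C' C'' U Ψ c₀)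

/-- The inclusion of the base model in the model of the cover. -/
def incC : C' →+* C'' :=
  (incl C').codRestrict C'' fun x => H.map_mem_C x x.2

theorem coe_incC (x : C') : ((H.incC x : C'') : F'') = algebraMap F' F'' (x : F') := rfl

/-- The generator, as an element of the model of the cover. -/
def UC : C'' := ⟨U, H.U_mem⟩

theorem coe_UC : ((H.UC : C'') : F'') = U := rfl

/-- The value at the generator. -/
noncomputable def ev : Polynomial C' →+* C'' := Polynomial.eval₂RingHom H.incC H.UC

theorem ev_apply (a : Polynomial C') : H.ev a = a.eval₂ H.incC H.UC := rfl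

theorem coe_ev (a : Polynomial C') : ((H.ev a : C'') : F'') = a.eval₂ (incl C') U := by
  rw [ev_apply, ← Subring.coe_subtype, Polynomial.hom_eval₂]
  rfl

theorem ev_C (x : C') : H.ev (C x) = H.incC x := by
  rw [ev_apply, eval₂_C]

theorem ev_X : H.ev X = H.UC := by
  rw [ev_apply, eval₂_X]

theorem ev_root : H.ev Ψ = 0 := by
  apply Subtype.ext
  rw [coe_ev, H.root]
  rfl

/-- The value of the derivative at the generator. -/
noncomputable def dΨ : C'' := H.ev (derivative Ψ)

/-- The conductor property, in the model of the cover. -/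
theorem cond' (x : C'') : ∃ a : Polynomial C', H.dΨ * x = H.ev a := by
  obtain ⟨a, ha⟩ := H.cond x x.2
  refine ⟨a, Subtype.ext ?_⟩
  rw [coe_ev, ← ha, Subring.coe_mul, dΨ, coe_ev]

/-- The reduction map on the model of the cover. -/
def red : C'' →+* Ft'' := res''.comp (Subring.inclusion H.le)

theorem red_apply (x : C'') : H.red x = res'' ⟨x, H.le x x.2⟩ := rfl

/-- The reduction of the generator. -/
def Ubar : Ft'' := H.red H.UC

end Maps

variable (M' : SmoothModel A π O' res' Q T' t C' ϖ)
  (H : CoverPoint A π O' res' Q O'' res'' Q'' C' C'' U Ψ c₀)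

include M' in
theorem red_incC (x : C') : H.red (H.incC x) = algebraMap Ft' Ft'' (M'.red x) := by
  rw [red_apply, SmoothModel.red_apply]
  exact H.res_map x (M'.le x x.2)

include M' in
theorem red_comp_incC : H.red.comp H.incC = (algebraMap Ft' Ft'').comp M'.red :=
  RingHom.ext fun x => H.red_incC M' x

include M' in
/-- The reduction of the value of a polynomial at the generator. -/
theorem red_ev (a : Polynomial C') :
    H.red (H.ev a) = (a.map M'.red).eval₂ (algebraMap Ft' Ft'') H.Ubar := by
  rw [ev_apply, Polynomial.hom_eval₂, H.red_comp_incC M', Polynomial.eval₂_map]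
  rfl

include H in
theorem lies_lt (g : Ft') :
    Q''.adicValuation (algebraMap Ft' Ft'' g) < 1 ↔ Q.adicValuation g < 1 :=
  lt_one_iff_of_mem_iff (algebraMap Ft' Ft'') H.lies g

include H in
theorem lies_le (g : Ft') :
    Q''.adicValuation (algebraMap Ft' Ft'' g) ≤ 1 ↔ Q.adicValuation g ≤ 1 :=
  le_one_iff_of_mem_iff (algebraMap Ft' Ft'') H.lies g

theorem Ubar_sub_lt : Q''.adicValuation (H.Ubar - algebraMap k Ft'' (π c₀)) < 1 := H.value

theorem Ubar_le : Q''.adicValuation H.Ubar ≤ 1 := by
  have h1 : H.Ubar = (H.Ubar - algebraMap k Ft'' (π c₀)) + algebraMap k Ft'' (π c₀) := by ring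
  rw [h1]
  exact (Valuation.map_add _ _ _).trans
    (max_le (le_of_lt H.Ubar_sub_lt) (Q''.adicValuation_algebraMap_le_one _))

include M' in
theorem red_incC_le (x : C') : Q''.adicValuation (H.red (H.incC x)) ≤ 1 := by
  rw [H.red_incC M', H.lies_le]
  exact M'.regular x

include M' in
/-- The reductions of the values of polynomials are regular at the point. -/
theorem red_ev_le (a : Polynomial C') : Q''.adicValuation (H.red (H.ev a)) ≤ 1 := by
  rw [← mem_iff_le_one, ev_apply, Polynomial.hom_eval₂]
  apply eval₂_mem_subring _ Q''.toValuationSubring.toSubring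
  · intro r
    exact mem_iff_le_one.mpr (H.red_incC_le M' r)
  · exact mem_iff_le_one.mpr H.Ubar_le

include M' in
theorem red_dΨ_eq_one : Q''.adicValuation (H.red H.dΨ) = 1 := by
  refine le_antisymm (H.red_ev_le M' _) (not_lt.mp ?_)
  have hmem : (derivative Ψ).eval₂ (incl C') U ∈ C'' := by
    rw [← H.coe_ev]
    exact (H.ev _).2
  have h := H.simple (H.le _ hmem)
  intro hlt
  apply h
  have e : (⟨(derivative Ψ).eval₂ (incl C') U, H.le _ hmem⟩ : O'') =
      ⟨((H.dΨ : C'') : F''), H.le _ H.dΨ.2⟩ := Subtype.ext (H.coe_ev _).symm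
  rw [e]
  exact hlt

include M' in
/-- **`regular`** for the cover. -/
theorem regular (x : C'') : Q''.adicValuation (H.red x) ≤ 1 := by
  obtain ⟨a, ha⟩ := H.cond' x
  have h1 := congrArg (fun z => Q''.adicValuation (H.red z)) ha
  simp only [map_mul] at h1
  rw [H.red_dΨ_eq_one M', one_mul] at h1
  rw [h1]
  exact H.red_ev_le M' a

end CoverPoint

end Fermat.Agent.BR3.CoverSmooth
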