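import Mathlib
import Fermat.Agent.BR3.CoverSmooth.Basic

/-!
# Program C, node A6 (COVER-SMOOTH), part A6-MODEL: `fullRes` and `transversal` for the cover

* `fullRes_cover` : the values at `Q''` of the reductions of the functions of the model of the cover
  are residues of constants of the base model.
* `transversal_cover` : locally at the point of the cover, the reduction of `t` generates the
  functions vanishing at `Q''`.
-/

set_option autoImplicit false
set_option linter.unusedSectionVars false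

namespace Fermat.Agent.BR3.CoverSmooth

open AlgebraicCurve IsLocalRing Polynomial Fermat.Agent.Red Fermat.Agent.X0 Fermat.Agent.BR
  Fermat.Agent.BR.Centre Fermat.Agent.BR.S0

variable {K F' F'' k : Type*} [Field K] [Field F'] [Field F''] [Algebra K F'] [Algebra K F'']
  [Algebra F' F''] [IsScalarTower K F' F''] [Algebra.IsIntegral F' F''] [Field k]
  {Ft' Ft'' : Type*} [Field Ft'] [Field Ft''] [Algebra k Ft'] [Algebra k Ft'']
  [Algebra Ft' Ft''] [IsScalarTower k Ft' Ft'']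

namespace CoverPoint

variable {A : ValuationSubring K} {π : A →+* k}
  {O' : ValuationSubring F'} {res' : O' →+* Ft'} {Q : Place k Ft'} {T' : Set (Place K F')}
  {t : F'} {C' : Subring F'} {ϖ : K}
  {O'' : ValuationSubring F''} {res'' : O'' →+* Ft''} {Q'' : Place k Ft''}
  {C'' : Subring F''} {U : F''} {Ψ : Polynomial C'} {c₀ : A}

variable (M' : SmoothModel A π O' res' Q T' t C' ϖ)
  (H : CoverPoint A π O' res' Q O'' res'' Q'' C' C'' U Ψ c₀)

include H in
/-- Values at `Q` give values at `Q''`. -/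
theorem isValueAt_map {g : Ft'} {c : k} (hg : IsValueAt Q g c) :
    IsValueAt Q'' (algebraMap Ft' Ft'' g) c := by
  unfold IsValueAt at hg ⊢
  rw [← H.lies_lt] at hg
  rwa [map_sub, ← IsScalarTower.algebraMap_apply] at hg

theorem isValueAt_Ubar : IsValueAt Q'' H.Ubar (π c₀) := H.value

/-- The constant `c₀`, in the base model. -/
def c₀C : C' := ⟨algebraMap K F' (c₀ : K), H.c₀_mem⟩

include M' in
theorem red_c₀C
    (hres : ∀ (a : K) (ha : a ∈ A) (h : algebraMap K F' a ∈ O'),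
      res' ⟨algebraMap K F' a, h⟩ = algebraMap k Ft' (π ⟨a, ha⟩)) :
    M'.red H.c₀C = algebraMap k Ft' (π c₀) :=
  hres c₀ c₀.2 _

include M' in
/-- The values at `Q''` of the reductions of the values of polynomials are residues of constants
of the base model. -/
theorem fullRes_ev (a : Polynomial C') :
    ∃ β : A, algebraMap K F' (β : K) ∈ C' ∧ IsValueAt Q'' (H.red (H.ev a)) (π β) := by
  induction a using Polynomial.induction_on' with
  | add p q hp hq =>
    obtain ⟨β₁, hβ₁, h₁⟩ := hp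
    obtain ⟨β₂, hβ₂, h₂⟩ := hq
    refine ⟨β₁ + β₂, ?_, ?_⟩
    · show algebraMap K F' ((β₁ : K) + (β₂ : K)) ∈ C'
      rw [map_add]
      exact C'.add_mem hβ₁ hβ₂
    · rw [map_add, map_add, map_add]
      exact h₁.add h₂
  | monomial n x =>
    obtain ⟨α, hα, h₁⟩ := M'.fullRes x
    have h₂ : IsValueAt Q'' (H.red (H.incC x)) (π α) := by
      rw [H.red_incC M']
      exact H.isValueAt_map h₁
    refine ⟨α * c₀ ^ n, ?_, ?_⟩
    · show algebraMap K F' ((α : K) * (c₀ : K) ^ n) ∈ C'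
      rw [map_mul, map_pow]
      exact C'.mul_mem hα (C'.pow_mem H.c₀_mem n)
    · rw [ev_apply, Polynomial.eval₂_monomial, map_mul, map_pow, map_mul, map_pow]
      exact h₂.mul (H.isValueAt_Ubar.pow n)

include M' in
/-- **`fullRes`** for the cover. -/
theorem fullRes_cover (hπ : ∀ a : A, π a ≠ 0 → (a : K)⁻¹ ∈ A) (x : C'') :
    ∃ β : A, algebraMap K F' (β : K) ∈ C' ∧ IsValueAt Q'' (H.red x) (π β) := by
  obtain ⟨a, ha⟩ := H.cond' x
  obtain ⟨β, hβ, h₁⟩ := H.fullRes_ev M' a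
  obtain ⟨δ, hδ, h₂⟩ := H.fullRes_ev M' (derivative Ψ)
  have hd1 : Q''.adicValuation (H.red H.dΨ) = 1 := H.red_dΨ_eq_one M'
  have hδ0 : π δ ≠ 0 := by
    intro h0
    rw [h0] at h₂
    have h3 : Q''.adicValuation (H.red H.dΨ) < 1 := isValueAt_zero_iff.mp h₂
    rw [hd1] at h3
    exact lt_irrefl _ h3
  have hd0 : H.red H.dΨ ≠ 0 := by
    intro h0
    rw [h0, map_zero] at hd1
    exact zero_ne_one hd1
  have hδinv : (δ : K)⁻¹ ∈ A := hπ δ hδ0
  have hδK : (δ : K) ≠ 0 := by
    intro h0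
    apply hδ0
    have : δ = 0 := Subtype.ext h0
    rw [this, map_zero]
  have hπinv : π ⟨(δ : K)⁻¹, hδinv⟩ = (π δ)⁻¹ := by
    apply eq_inv_of_mul_eq_one_left
    rw [← map_mul]
    have : (⟨(δ : K)⁻¹, hδinv⟩ : A) * δ = 1 := Subtype.ext (inv_mul_cancel₀ hδK)
    rw [this, map_one]
  refine ⟨β * ⟨(δ : K)⁻¹, hδinv⟩, ?_, ?_⟩
  · show algebraMap K F' ((β : K) * (δ : K)⁻¹) ∈ C'
    rw [map_mul]
    exact C'.mul_mem hβ (H.inv_const δ hδ hδ0)
  · have hx : H.red x = H.red (H.ev a) * (H.red H.dΨ)⁻¹ := by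
      rw [← ha, map_mul, mul_comm, ← mul_assoc, inv_mul_cancel₀ hd0, one_mul]
    rw [hx, map_mul, hπinv]
    exact h₁.mul (IsValueAt.inv h₂ hδ0)

/-- The function `U - c₀` of the model of the cover. -/
noncomputable def wC : C'' := H.UC - H.incC H.c₀C

theorem ev_X_sub_C : H.ev (X - Polynomial.C H.c₀C) = H.wC := by
  rw [map_sub, H.ev_X, H.ev_C]
  rfl

include M' in
/-- `U - c₀` vanishes at the point. -/
theorem red_wC_lt
    (hres : ∀ (a : K) (ha : a ∈ A) (h : algebraMap K F' a ∈ O'),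
      res' ⟨algebraMap K F' a, h⟩ = algebraMap k Ft' (π ⟨a, ha⟩)) :
    Q''.adicValuation (H.red H.wC) < 1 := by
  have h1 : H.red H.wC = H.Ubar - algebraMap k Ft'' (π c₀) := by
    rw [wC, map_sub, H.red_incC M', H.red_c₀C M' hres, ← IsScalarTower.algebraMap_apply]
    rfl
  rw [h1]
  exact H.Ubar_sub_lt

/-- Taylor expansion at `c₀` to the first order, at the generator. -/
theorem ev_eq_add (p : Polynomial C') :
    H.ev p = H.incC (p.eval H.c₀C) + H.wC * H.ev (p /ₘ (X - Polynomial.C H.c₀C)) := by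
  conv_lhs => rw [← Polynomial.modByMonic_add_div p (X - Polynomial.C H.c₀C),
    Polynomial.modByMonic_X_sub_C_eq_C_eval]
  rw [map_add, map_mul, H.ev_C, H.ev_X_sub_C]

include M' in
/-- **`transversal`** for the cover. -/
theorem transversal_cover
    (hres : ∀ (a : K) (ha : a ∈ A) (h : algebraMap K F' a ∈ O'),
      res' ⟨algebraMap K F' a, h⟩ = algebraMap k Ft' (π ⟨a, ha⟩))
    (x : C'') (hx : Q''.adicValuation (H.red x) < 1) :
    ∃ s c : C'', Q''.adicValuation (H.red s) = 1 ∧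
      H.red (s * x) = H.red (c * H.incC ⟨t, M'.t_mem⟩) := by
  obtain ⟨a, ha⟩ := H.cond' x
  have hw := H.red_wC_lt M' hres
  set G : Polynomial C' := Ψ /ₘ (X - Polynomial.C H.c₀C) with hG
  set a₁ : Polynomial C' := a /ₘ (X - Polynomial.C H.c₀C) with ha₁
  set Ψ₀ : C' := Ψ.eval H.c₀C with hΨ₀
  set a₀ : C' := a.eval H.c₀C with ha₀
  have eΨ : 0 = H.incC Ψ₀ + H.wC * H.ev G := by
    rw [← H.ev_eq_add Ψ, H.ev_root]
  have ea : H.dΨ * x = H.incC a₀ + H.wC * H.ev a₁ := by
    rw [ha, ← H.ev_eq_add a]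
  -- the derivative
  have eD : H.dΨ = H.ev G + H.wC * H.ev (derivative G) := by
    have h1 : Ψ = Polynomial.C Ψ₀ + (X - Polynomial.C H.c₀C) * G := by
      conv_lhs => rw [← Polynomial.modByMonic_add_div Ψ (X - Polynomial.C H.c₀C),
        Polynomial.modByMonic_X_sub_C_eq_C_eval]
    have h2 : derivative Ψ = G + (X - Polynomial.C H.c₀C) * derivative G := by
      conv_lhs => rw [h1]
      rw [Polynomial.derivative_add, Polynomial.derivative_C, zero_add,
        Polynomial.derivative_mul, Polynomial.derivative_sub, Polynomial.derivative_X,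
        Polynomial.derivative_C, sub_zero, one_mul]
    rw [dΨ, h2, map_add, map_mul, H.ev_X_sub_C]
  -- `G(U)` does not vanish at the point
  have hGU : Q''.adicValuation (H.red (H.ev G)) = 1 := by
    refine le_antisymm (H.red_ev_le M' G) (not_lt.mp fun hlt => ?_)
    have h1 : Q''.adicValuation (H.red H.dΨ) < 1 := by
      rw [eD, map_add, map_mul]
      refine lt_of_le_of_lt (Valuation.map_add _ _ _) (max_lt hlt ?_)
      rw [map_mul]
      exact mul_lt_one_of_nonneg_of_lt_one_left zero_le hw (H.red_ev_le M' _)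
    rw [H.red_dΨ_eq_one M'] at h1
    exact lt_irrefl _ h1
  -- `Ψ(c₀)` and `a(c₀)` vanish at the point of the base
  have hΨ₀lt : Q.adicValuation (M'.red Ψ₀) < 1 := by
    rw [← H.lies_lt, ← H.red_incC M']
    have h1 : H.incC Ψ₀ = -(H.wC * H.ev G) := by linear_combination -eΨ
    rw [h1, map_neg, Valuation.map_neg, map_mul, map_mul]
    exact mul_lt_one_of_nonneg_of_lt_one_left zero_le hw (H.red_ev_le M' _)
  have ha₀lt : Q.adicValuation (M'.red a₀) < 1 := by
    rw [← H.lies_lt, ← H.red_incC M']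
    have h1 : H.incC a₀ = H.dΨ * x - H.wC * H.ev a₁ := by linear_combination -ea
    rw [h1, map_sub]
    refine lt_of_le_of_lt (Valuation.map_sub _ _ _) (max_lt ?_ ?_)
    · rw [map_mul, map_mul]
      exact mul_lt_one_of_nonneg_of_lt_one_right (H.regular M' _) zero_le hx
    · rw [map_mul, map_mul]
      exact mul_lt_one_of_nonneg_of_lt_one_left zero_le hw (H.red_ev_le M' _)
  obtain ⟨s₁, c₁, hs₁, hsc₁⟩ := M'.transversal a₀ ha₀lt
  obtain ⟨s₂, c₂, hs₂, hsc₂⟩ := M'.transversal Ψ₀ hΨ₀lt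
  replace hsc₁ : M'.red (s₁ * a₀) = M'.red (c₁ * ⟨t, M'.t_mem⟩) := hsc₁
  replace hsc₂ : M'.red (s₂ * Ψ₀) = M'.red (c₂ * ⟨t, M'.t_mem⟩) := hsc₂
  have hs₁' : Q''.adicValuation (H.red (H.incC s₁)) = 1 := by
    refine le_antisymm (H.red_incC_le M' s₁) (not_lt.mp fun hlt => hs₁ ?_)
    rw [H.red_incC M', H.lies_lt] at hlt
    exact hlt
  have hs₂' : Q''.adicValuation (H.red (H.incC s₂)) = 1 := by
    refine le_antisymm (H.red_incC_le M' s₂) (not_lt.mp fun hlt => hs₂ ?_)
    rw [H.red_incC M', H.lies_lt] at hlt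
    exact hlt
  have r₁ : H.red (H.incC s₁) * H.red (H.incC a₀) =
      H.red (H.incC c₁) * H.red (H.incC ⟨t, M'.t_mem⟩) := by
    rw [← map_mul, ← map_mul, ← map_mul, ← map_mul, H.red_incC M', H.red_incC M', hsc₁]
  have r₂ : H.red (H.incC s₂) * H.red (H.incC Ψ₀) =
      H.red (H.incC c₂) * H.red (H.incC ⟨t, M'.t_mem⟩) := by
    rw [← map_mul, ← map_mul, ← map_mul, ← map_mul, H.red_incC M', H.red_incC M', hsc₂]
  refine ⟨H.incC s₁ * H.incC s₂ * H.ev G * H.dΨ,
    H.incC s₂ * H.ev G * H.incC c₁ - H.incC s₁ * H.ev a₁ * H.incC c₂, ?_, ?_⟩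
  · rw [map_mul, map_mul, map_mul, map_mul, map_mul, map_mul, hs₁', hs₂', hGU,
      H.red_dΨ_eq_one M']
    simp
  · have e1 : H.incC s₁ * H.incC s₂ * H.ev G * H.dΨ * x =
        H.incC s₂ * H.ev G * (H.incC s₁ * H.incC a₀) -
          H.incC s₁ * H.ev a₁ * (H.incC s₂ * H.incC Ψ₀) := by
      linear_combination (H.incC s₁ * H.incC s₂ * H.ev G) * ea -
        (H.incC s₁ * H.incC s₂ * H.ev a₁) * eΨ
    rw [e1]
    simp only [map_sub, map_mul]
    rw [r₁, r₂]
    ring

end CoverPoint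

end Fermat.Agent.BR3.CoverSmooth
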