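import Mathlib
import Fermat.Agent.BR.S0.SmoothModel

/-!
# Program C, node A6 (COVER-SMOOTH), part A6-MODEL: the local ring of the reduction at the point

`M : SmoothModel A π O res Q T t C ϖ` a global normal model with a smooth point.  The reduction of
the local ring `M.loc` of the model at the point is a subring `redRing` of the function field
`Ft` of the component: the local ring at `Q` of the reduction of the model.  It is a noetherian
local domain whose maximal ideal is generated by the reduction of `t` (`transversal`, `vert`),
hence **integrally closed** (`redRing_isIntegrallyClosed`).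
-/

set_option autoImplicit false
set_option linter.unusedSectionVars false

namespace Fermat.Agent.BR3.CoverSmooth

open AlgebraicCurve IsLocalRing Fermat.Agent.Red Fermat.Agent.X0 Fermat.Agent.BR
  Fermat.Agent.BR.Centre Fermat.Agent.BR.S0

variable {K F k : Type*} [Field K] [Field F] [Algebra K F] [Field k]
  {Ft : Type*} [Field Ft] [Algebra k Ft]
  {A : ValuationSubring K} {π : A →+* k} {O : ValuationSubring F} {res : O →+* Ft}
  {Q : Place k Ft} {T : Set (Place K F)} {t : F} {C : Subring F} {ϖ : K}

variable (M : SmoothModel A π O res Q T t C ϖ)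
  (hres0 : ∀ x : O, res x = 0 ↔ (x : F) ∈ O.nonunits)

/-- The reduction map on the local ring of the model at the point. -/
noncomputable def redLoc : M.loc →+* Ft :=
  res.comp (Subring.inclusion (M.loc_le fun x hx => (hres0 x).mpr hx))

theorem redLoc_apply (z : M.loc) :
    redLoc M hres0 z = res ⟨z, M.loc_le (fun x hx => (hres0 x).mpr hx) z z.2⟩ := rfl

theorem redLoc_coe (x : C) : redLoc M hres0 ⟨x, M.le_loc x.2⟩ = M.red x := rfl

/-- The reduction of a quotient. -/
theorem redLoc_mul_red {z : M.loc} {a b : C} (hab : (z : F) * (b : F) = (a : F)) :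
    redLoc M hres0 z * M.red b = M.red a :=
  M.res_mul_red (fun x hx => (hres0 x).mpr hx) z.2 hab

/-- The reductions of the functions of the local ring are regular at the point. -/
theorem redLoc_le (z : M.loc) : Q.adicValuation (redLoc M hres0 z) ≤ 1 := by
  obtain ⟨a, b, hb, hab⟩ := M.mem_loc_iff.mp z.2
  have h1 := congrArg Q.adicValuation (redLoc_mul_red M hres0 hab)
  rw [map_mul, M.adicValuation_eq_one_of_notMem hb, mul_one] at h1
  rw [h1]
  exact M.regular a

/-- The non-units of the local ring vanish at the point. -/
theorem redLoc_lt_of_not_isUnit {z : M.loc} (hz : ¬ IsUnit z) :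
    Q.adicValuation (redLoc M hres0 z) < 1 :=
  M.loc_branch (fun x hx => (hres0 x).mpr hx) z hz

theorem redLoc_eq_one_of_isUnit {z : M.loc} (hz : IsUnit z) :
    Q.adicValuation (redLoc M hres0 z) = 1 := by
  obtain ⟨w, hw⟩ := isUnit_iff_exists_inv.mp hz
  have h1 := congrArg (fun y => Q.adicValuation (redLoc M hres0 y)) hw
  simp only [map_mul, map_one] at h1
  refine le_antisymm (redLoc_le M hres0 z) (not_lt.mp fun hlt => ?_)
  have h2 : Q.adicValuation (redLoc M hres0 z) * Q.adicValuation (redLoc M hres0 w) < 1 :=
    mul_lt_one_of_nonneg_of_lt_one_left zero_le hlt (redLoc_le M hres0 w)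
  rw [h1] at h2
  exact lt_irrefl _ h2

include hres0 in
/-- The reduction of the uniformiser of the base vanishes. -/
theorem redLoc_unif
    (hres : ∀ (a : K) (ha : a ∈ A) (h : algebraMap K F a ∈ O),
      res ⟨algebraMap K F a, h⟩ = algebraMap k Ft (π ⟨a, ha⟩))
    (hπ0 : ∀ a : A, A.valuation (a : K) < 1 → π a = 0) :
    redLoc M hres0 ⟨algebraMap K F ϖ, M.le_loc M.unif_mem⟩ = 0 := by
  have hϖA : ϖ ∈ A := (A.valuation_le_one_iff ϖ).mp (le_of_lt M.unif_lt)
  rw [redLoc_apply]
  rw [hres ϖ hϖA, hπ0 ⟨ϖ, hϖA⟩ M.unif_lt, map_zero]

/-- The local ring at the point of the reduction of the model. -/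
noncomputable def redRing : Subring Ft := (redLoc M hres0).range

/-- The reduction map onto the local ring of the reduction. -/
noncomputable def toRedRing : M.loc →+* redRing M hres0 := (redLoc M hres0).rangeRestrict

theorem coe_toRedRing (z : M.loc) : ((toRedRing M hres0 z : redRing M hres0) : Ft) =
    redLoc M hres0 z := rfl

theorem toRedRing_surjective : Function.Surjective (toRedRing M hres0) :=
  (redLoc M hres0).rangeRestrict_surjective

/-- The functions of the local ring of the reduction are regular at the point. -/
theorem redRing_le (d : redRing M hres0) : Q.adicValuation (d : Ft) ≤ 1 := by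
  obtain ⟨z, rfl⟩ := toRedRing_surjective M hres0 d
  exact redLoc_le M hres0 z

instance redRing_isLocalRing : IsLocalRing (redRing M hres0) :=
  IsLocalRing.of_surjective' (toRedRing M hres0) (toRedRing_surjective M hres0)

theorem loc_isNoetherianRing : IsNoetherianRing M.loc :=
  have := M.noeth
  IsLocalization.isNoetherianRing M.point.primeCompl M.loc inferInstance

theorem redRing_isNoetherianRing : IsNoetherianRing (redRing M hres0) :=
  have := loc_isNoetherianRing M
  isNoetherianRing_of_surjective M.loc (redRing M hres0) (toRedRing M hres0)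
    (toRedRing_surjective M hres0)

/-- The reduction of `t`, in the local ring of the reduction. -/
noncomputable def tRed : redRing M hres0 := toRedRing M hres0 ⟨t, M.le_loc M.t_mem⟩

include hres0 in
/-- The maximal ideal of the local ring of the reduction is generated by the reduction of `t`. -/
theorem maximalIdeal_redRing
    (hres : ∀ (a : K) (ha : a ∈ A) (h : algebraMap K F a ∈ O),
      res ⟨algebraMap K F a, h⟩ = algebraMap k Ft (π ⟨a, ha⟩))
    (hπ0 : ∀ a : A, A.valuation (a : K) < 1 → π a = 0) :
    maximalIdeal (redRing M hres0) = Ideal.span {tRed M hres0} := by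
  apply le_antisymm
  · intro d hd
    obtain ⟨z, rfl⟩ := toRedRing_surjective M hres0 d
    have hz : ¬ IsUnit z := fun hu => (mem_maximalIdeal _).mp hd (hu.map (toRedRing M hres0))
    have h1 := M.loc_nonunit_mem (fun x hx => (hres0 x).mp hx) z hz
    obtain ⟨α, β, hαβ⟩ := Ideal.mem_span_pair.mp h1
    rw [Ideal.mem_span_singleton]
    refine ⟨toRedRing M hres0 β, ?_⟩
    have h0 : toRedRing M hres0 ⟨algebraMap K F ϖ, M.le_loc M.unif_mem⟩ = 0 :=
      Subtype.ext (redLoc_unif M hres0 hres hπ0)
    rw [← hαβ, map_add, map_mul, map_mul, h0, mul_zero, zero_add, mul_comm]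
    rfl
  · rw [Ideal.span_singleton_le_iff_mem, mem_maximalIdeal, mem_nonunits_iff]
    intro hu
    obtain ⟨w, hw⟩ := isUnit_iff_exists_inv.mp hu
    have h1 := congrArg (fun y : redRing M hres0 => Q.adicValuation (y : Ft)) hw
    simp only [Subring.coe_mul, map_mul, Subring.coe_one, map_one] at h1
    have hlt : Q.adicValuation ((tRed M hres0 : redRing M hres0) : Ft) < 1 := M.t_van
    have h2 : Q.adicValuation ((tRed M hres0 : redRing M hres0) : Ft) *
        Q.adicValuation (w : Ft) < 1 :=
      mul_lt_one_of_nonneg_of_lt_one_left zero_le hlt (redRing_le M hres0 w)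
    rw [h1] at h2
    exact lt_irrefl _ h2

include hres0 in
/-- **The local ring at the point of the reduction of the model is integrally closed.** -/
theorem redRing_isIntegrallyClosed
    (hres : ∀ (a : K) (ha : a ∈ A) (h : algebraMap K F a ∈ O),
      res ⟨algebraMap K F a, h⟩ = algebraMap k Ft (π ⟨a, ha⟩))
    (hπ0 : ∀ a : A, A.valuation (a : K) < 1 → π a = 0) :
    IsIntegrallyClosed (redRing M hres0) := by
  have := redRing_isNoetherianRing M hres0
  have hp : (maximalIdeal (redRing M hres0)).IsPrincipal :=
    ⟨⟨tRed M hres0, maximalIdeal_redRing M hres0 hres hπ0⟩⟩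
  have h43 : (maximalIdeal (redRing M hres0)).IsPrincipal →
      (IsIntegrallyClosed (redRing M hres0) ∧ ∀ P : Ideal (redRing M hres0), P ≠ ⊥ → P.IsPrime →
        P = maximalIdeal (redRing M hres0)) :=
    ((tfae_of_isNoetherianRing_of_isLocalRing_of_isDomain (redRing M hres0)).out 4 3).mp
  exact (h43 hp).1

/-- The elements of the local ring of the reduction are the quotients of reductions, with
denominator not vanishing at the point. -/
theorem exists_mul_red_eq (d : redRing M hres0) :
    ∃ a b : C, b ∉ M.point ∧ (d : Ft) * M.red b = M.red a := by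
  obtain ⟨z, rfl⟩ := toRedRing_surjective M hres0 d
  obtain ⟨a, b, hb, hab⟩ := M.mem_loc_iff.mp z.2
  exact ⟨a, b, hb, redLoc_mul_red M hres0 hab⟩

/-- The reduction map from the model to the local ring of the reduction. -/
noncomputable def redD : C →+* redRing M hres0 := (toRedRing M hres0).comp (Subring.inclusion M.le_loc)

theorem coe_redD (x : C) : ((redD M hres0 x : redRing M hres0) : Ft) = M.red x := rfl

theorem subtype_comp_redD : (redRing M hres0).subtype.comp (redD M hres0) = M.red := rfl

end Fermat.Agent.BR3.CoverSmooth
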