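import Mathlib
import Fermat.Agent.BR3.CoverSmooth.Point

/-!
# Program C, node A6 (COVER-SMOOTH), part A6-MODEL: the tube of the point of the cover

* `tube_centred_cover` : the places of `coverTube` are integral on the model of the cover with
  centre the point;
* `tube_of_centred_cover` : a place integral on the model of the cover with centre the point lies
  in `coverTube`.
-/

set_option autoImplicit false
set_option linter.unusedSectionVars false

namespace Fermat.Agent.BR3.CoverSmooth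

open AlgebraicCurve IsLocalRing Polynomial Fermat.Agent.Red Fermat.Agent.X0 Fermat.Agent.BR
  Fermat.Agent.BR.Centre Fermat.Agent.BR.S0

variable {K F' F'' k : Type*} [Field K] [Field F'] [Field F''] [Algebra K F'] [Algebra K F'']
  [Algebra F' F''] [IsScalarTower K F' F''] [Algebra.IsIntegral F' F''] [Field k]
  {Ft' Ft'' : Type*} [Field Ft'] [Field Ft''] [Algebra k Ft'] [Algebra k Ft'']
  [Algebra Ft' Ft''] [IsScalarTower k Ft' Ft'']

/-- The residue of an element of `A` vanishes iff the element is not a unit. -/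
theorem valuation_lt_one_iff_map_eq_zero {A : ValuationSubring K} {π : A →+* k}
    (hπ0 : ∀ a : A, A.valuation (a : K) < 1 → π a = 0) (v : A) :
    A.valuation (v : K) < 1 ↔ π v = 0 := by
  refine ⟨hπ0 v, fun h0 => ?_⟩
  by_contra hlt
  have h1 : A.valuation (v : K) = 1 :=
    le_antisymm ((A.valuation_le_one_iff _).mpr v.2) (not_lt.mp hlt)
  have hv0 : (v : K) ≠ 0 := by
    intro h
    rw [h, map_zero] at h1
    exact zero_ne_one h1
  have hinv : (v : K)⁻¹ ∈ A := by
    rw [← A.valuation_le_one_iff, map_inv₀, h1, inv_one]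
  have h2 : v * ⟨(v : K)⁻¹, hinv⟩ = 1 := Subtype.ext (mul_inv_cancel₀ hv0)
  have h3 := congrArg π h2
  rw [map_mul, h0, zero_mul, map_one] at h3
  exact zero_ne_one h3

namespace CoverPoint

variable {A : ValuationSubring K} {π : A →+* k}
  {O' : ValuationSubring F'} {res' : O' →+* Ft'} {Q : Place k Ft'} {T' : Set (Place K F')}
  {t : F'} {C' : Subring F'} {ϖ : K}
  {O'' : ValuationSubring F''} {res'' : O'' →+* Ft''} {Q'' : Place k Ft''}
  {C'' : Subring F''} {U : F''} {Ψ : Polynomial C'} {c₀ : A}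

variable (M' : SmoothModel A π O' res' Q T' t C' ϖ)
  (H : CoverPoint A π O' res' Q O'' res'' Q'' C' C'' U Ψ c₀)
  (hres : ∀ (a : K) (ha : a ∈ A) (h : algebraMap K F' a ∈ O'),
      res' ⟨algebraMap K F' a, h⟩ = algebraMap k Ft' (π ⟨a, ha⟩))
  (hπ : ∀ a : A, π a ≠ 0 → (a : K)⁻¹ ∈ A)
  (hπ0 : ∀ a : A, A.valuation (a : K) < 1 → π a = 0)

include M' hres hπ0 in
/-- The values at a place of the tube and at the point, for the functions of the base model. -/
theorem exists_value_incC {P'' : Place K F''} (hP' : P''.restrict F' ∈ T') (x : C') :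
    ∃ v : A, IsValueAt P'' ((H.incC x : C'') : F'') v ∧ IsValueAt Q'' (H.red (H.incC x)) (π v) := by
  obtain ⟨h', hcen'⟩ := M'.tube_centred _ hP'
  have hv := h'.isValueAt_evalAt x.2
  refine ⟨⟨evalAt (P''.restrict F') (x : F'), h'.evalAt_mem x.2⟩,
    (isValueAt_restrict_iff P'' _ _).mp hv, ?_⟩
  obtain ⟨α, hα, h₁⟩ := M'.fullRes x
  -- `x - α` lies in the point, hence in the centre
  have h2 : x - ⟨algebraMap K F' (α : K), hα⟩ ∈ centre h' := by
    rw [hcen']
    show Q.adicValuation (M'.red (x - ⟨algebraMap K F' (α : K), hα⟩)) < 1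
    rw [map_sub]
    have e : M'.red ⟨algebraMap K F' (α : K), hα⟩ = algebraMap k Ft' (π α) := hres α α.2 _
    rw [e]
    exact h₁
  rw [mem_centre_iff] at h2
  have h3 : evalAt (P''.restrict F') ((x - ⟨algebraMap K F' (α : K), hα⟩ : C') : F') =
      evalAt (P''.restrict F') (x : F') - (α : K) :=
    evalAt_eq_of_isValueAt (hv.sub (isValueAt_algebraMap _ _))
  rw [h3] at h2
  have h4 : π (⟨evalAt (P''.restrict F') (x : F'), h'.evalAt_mem x.2⟩ - α) = 0 := hπ0 _ h2
  rw [map_sub, sub_eq_zero] at h4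
  rw [H.red_incC M', h4]
  exact H.isValueAt_map h₁

include hπ0 in
/-- The values at a place of the tube and at the point, for the generator. -/
theorem exists_value_UC {P'' : Place K F''} {c : K} (hc : IsValueAt P'' U c)
    (hcc : A.valuation (c - (c₀ : K)) < 1) :
    ∃ v : A, IsValueAt P'' ((H.UC : C'') : F'') v ∧ IsValueAt Q'' (H.red H.UC) (π v) := by
  have hd : c - (c₀ : K) ∈ A := (A.valuation_le_one_iff _).mp (le_of_lt hcc)
  have hcA : c ∈ A := by
    have : c = (c - (c₀ : K)) + (c₀ : K) := by ring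
    rw [this]
    exact A.add_mem _ _ hd c₀.2
  refine ⟨⟨c, hcA⟩, hc, ?_⟩
  have h1 : π (⟨c, hcA⟩ - c₀) = 0 := hπ0 _ hcc
  rw [map_sub, sub_eq_zero] at h1
  rw [h1]
  exact H.isValueAt_Ubar

include M' hres hπ0 in
/-- The values at a place of the tube and at the point, for the values of polynomials. -/
theorem exists_value_ev {P'' : Place K F''} (hP'' : P'' ∈ coverTube A T' U c₀)
    (a : Polynomial C') :
    ∃ v : A, IsValueAt P'' ((H.ev a : C'') : F'') v ∧ IsValueAt Q'' (H.red (H.ev a)) (π v) := by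
  obtain ⟨hP', c, hc, hcc⟩ := hP''
  induction a using Polynomial.induction_on' with
  | add p q hp hq =>
    obtain ⟨v₁, h₁, h₁'⟩ := hp
    obtain ⟨v₂, h₂, h₂'⟩ := hq
    refine ⟨v₁ + v₂, ?_, ?_⟩
    · rw [map_add, Subring.coe_add]
      exact h₁.add h₂
    · rw [map_add, map_add, map_add]
      exact h₁'.add h₂'
  | monomial n x =>
    obtain ⟨v₁, h₁, h₁'⟩ := H.exists_value_incC M' hres hπ0 hP' x
    obtain ⟨v₂, h₂, h₂'⟩ := H.exists_value_UC hπ0 hc hcc
    refine ⟨v₁ * v₂ ^ n, ?_, ?_⟩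
    · rw [ev_apply, Polynomial.eval₂_monomial, Subring.coe_mul, Subring.coe_pow]
      exact h₁.mul (h₂.pow n)
    · rw [ev_apply, Polynomial.eval₂_monomial, map_mul, map_pow, map_mul, map_pow]
      exact h₁'.mul (h₂'.pow n)

include M' hres hπ hπ0 in
/-- The values at a place of the tube and at the point, for the functions of the model of the
cover. -/
theorem exists_value {P'' : Place K F''} (hP'' : P'' ∈ coverTube A T' U c₀) (x : C'') :
    ∃ v : A, IsValueAt P'' (x : F'') v ∧ IsValueAt Q'' (H.red x) (π v) := by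
  obtain ⟨a, ha⟩ := H.cond' x
  obtain ⟨va, h₁, h₁'⟩ := H.exists_value_ev M' hres hπ0 hP'' a
  obtain ⟨vd, h₂, h₂'⟩ := H.exists_value_ev M' hres hπ0 hP'' (derivative Ψ)
  have hd1 : Q''.adicValuation (H.red H.dΨ) = 1 := H.red_dΨ_eq_one M'
  have hδ0 : π vd ≠ 0 := by
    intro h0
    rw [h0] at h₂'
    have h3 : Q''.adicValuation (H.red H.dΨ) < 1 := isValueAt_zero_iff.mp h₂'
    rw [hd1] at h3
    exact lt_irrefl _ h3
  have hd0 : H.red H.dΨ ≠ 0 := by
    intro h0
    rw [h0, map_zero] at hd1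
    exact zero_ne_one hd1
  have hinv : (vd : K)⁻¹ ∈ A := hπ vd hδ0
  have hvK : (vd : K) ≠ 0 := by
    intro h0
    apply hδ0
    have : vd = 0 := Subtype.ext h0
    rw [this, map_zero]
  have hπinv : π ⟨(vd : K)⁻¹, hinv⟩ = (π vd)⁻¹ := by
    apply eq_inv_of_mul_eq_one_left
    rw [← map_mul]
    have : (⟨(vd : K)⁻¹, hinv⟩ : A) * vd = 1 := Subtype.ext (inv_mul_cancel₀ hvK)
    rw [this, map_one]
  have hdF : ((H.dΨ : C'') : F'') ≠ 0 := by
    intro h0
    have h3 : IsValueAt P'' ((H.dΨ : C'') : F'') 0 := by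
      rw [h0]
      exact isValueAt_zero P''
    exact hvK (h₂.unique h3)
  refine ⟨va * ⟨(vd : K)⁻¹, hinv⟩, ?_, ?_⟩
  · have hx : (x : F'') = ((H.ev a : C'') : F'') * (((H.dΨ : C'') : F''))⁻¹ := by
      rw [← ha, Subring.coe_mul, mul_comm, ← mul_assoc, inv_mul_cancel₀ hdF, one_mul]
    rw [hx]
    exact h₁.mul (IsValueAt.inv h₂ hvK)
  · have hx : H.red x = H.red (H.ev a) * (H.red H.dΨ)⁻¹ := by
      rw [← ha, map_mul, mul_comm, ← mul_assoc, inv_mul_cancel₀ hd0, one_mul]
    rw [hx, map_mul, hπinv]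
    exact h₁'.mul (IsValueAt.inv h₂' hδ0)

include M' hres hπ hπ0 in
/-- **`tube_centred`** for the cover. -/
theorem tube_centred_cover {P'' : Place K F''} (hP'' : P'' ∈ coverTube A T' U c₀) :
    ∃ h : IntegralAt A C'' P'',
      ∀ x : C'', x ∈ centre h ↔ Q''.adicValuation (H.red x) < 1 := by
  have hI : IntegralAt A C'' P'' := by
    intro y hy
    obtain ⟨v, hv, -⟩ := H.exists_value M' hres hπ hπ0 hP'' ⟨y, hy⟩
    exact ⟨v, v.2, hv⟩
  refine ⟨hI, fun x => ?_⟩
  obtain ⟨v, hv, hv'⟩ := H.exists_value M' hres hπ hπ0 hP'' x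
  rw [mem_centre_iff, evalAt_eq_of_isValueAt hv, valuation_lt_one_iff_map_eq_zero hπ0]
  constructor
  · intro h0
    rw [h0] at hv'
    exact isValueAt_zero_iff.mp hv'
  · intro hlt
    by_contra h0
    rw [hv'.adicValuation_eq_one h0] at hlt
    exact lt_irrefl _ hlt

include M' hres in
/-- **`tube_of_centred`** for the cover. -/
theorem tube_of_centred_cover {P'' : Place K F''} (h : IntegralAt A C'' P'')
    (hcen : ∀ x : C'', x ∈ centre h ↔ Q''.adicValuation (H.red x) < 1) :
    P'' ∈ coverTube A T' U c₀ := by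
  constructor
  · apply M'.tube_of_centred
    have h' : IntegralAt A C' (P''.restrict F') := by
      intro y hy
      obtain ⟨c, hcA, hc⟩ := h _ (H.map_mem_C y hy)
      exact ⟨c, hcA, (isValueAt_restrict_iff P'' y c).mpr hc⟩
    refine ⟨h', fun x => ?_⟩
    have hv := h'.isValueAt_evalAt x.2
    have e1 : evalAt P'' ((H.incC x : C'') : F'') = evalAt (P''.restrict F') (x : F') :=
      evalAt_eq_of_isValueAt ((isValueAt_restrict_iff P'' _ _).mp hv)
    rw [mem_centre_iff, ← e1, ← mem_centre_iff h, hcen, H.red_incC M', H.lies_lt]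
    rfl
  · refine ⟨evalAt P'' U, h.isValueAt_evalAt H.U_mem, ?_⟩
    have h1 : H.wC ∈ centre h := (hcen _).mpr (H.red_wC_lt M' hres)
    rw [mem_centre_iff] at h1
    have h2 : ((H.wC : C'') : F'') = U - algebraMap K F'' (c₀ : K) := by
      rw [IsScalarTower.algebraMap_apply K F' F'']
      rfl
    have h3 : evalAt P'' ((H.wC : C'') : F'') = evalAt P'' U - (c₀ : K) := by
      rw [h2]
      exact evalAt_eq_of_isValueAt ((h.isValueAt_evalAt H.U_mem).sub (isValueAt_algebraMap _ _))
    rw [h3] at h1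
    exact h1

end CoverPoint

end Fermat.Agent.BR3.CoverSmooth
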