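import Mathlib
import Fermat.Agent.BR3.CoverSmooth.Basic
import Fermat.Agent.BR3.CoverSmooth.RedRing

/-!
# Program C, node A6 (COVER-SMOOTH), part A6-MODEL: `vert` for the cover

Locally at the point of the cover, the trace of `𝔪_{O''}` on the model of the cover is generated
by `ϖ`: for `x ∈ C'' ∩ 𝔪_{O''}` write `Ψ'(U) x = a(U)`; the reduction `ā` has the root `Ū`, hence is
divisible in `D[X]` (`D = redRing`, integrally closed) by the minimal polynomial `g` of `Ū` over
`D`, as is `Ψ̄ = g h`; `h(Ū)` does not vanish at the point since the root is simple.  Lifting `g`,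
`h` and `ā / g` to `C'[X]` up to multipliers outside the point and applying `vert` of the base to
the finitely many coefficients of the differences gives the multiplier.
-/

set_option autoImplicit false
set_option linter.unusedSectionVars false

namespace Fermat.Agent.BR3.CoverSmooth

open AlgebraicCurve IsLocalRing Polynomial Fermat.Agent.Red Fermat.Agent.X0 Fermat.Agent.BR
  Fermat.Agent.BR.Centre Fermat.Agent.BR.S0

section Base

variable {K F k : Type*} [Field K] [Field F] [Algebra K F] [Field k]
  {Ft : Type*} [Field Ft] [Algebra k Ft]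
  {A : ValuationSubring K} {π : A →+* k} {O : ValuationSubring F} {res : O →+* Ft}
  {Q : Place k Ft} {T : Set (Place K F)} {t : F} {C : Subring F} {ϖ : K}

variable (M : SmoothModel A π O res Q T t C ϖ)
  (hres0 : ∀ x : O, res x = 0 ↔ (x : F) ∈ O.nonunits)

/-- The uniformiser of the base, in the model. -/
def unifC : C := ⟨algebraMap K F ϖ, M.unif_mem⟩

/-- Polynomials over the local ring of the reduction lift to the model, up to a multiplier outside
the point. -/
theorem exists_lift_poly (p : Polynomial (redRing M hres0)) :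
    ∃ s : C, s ∉ M.point ∧ ∃ P : Polynomial C,
      P.map (redD M hres0) = Polynomial.C (redD M hres0 s) * p := by
  induction p using Polynomial.induction_on' with
  | add p q hp hq =>
    obtain ⟨s₁, hs₁, P₁, h₁⟩ := hp
    obtain ⟨s₂, hs₂, P₂, h₂⟩ := hq
    refine ⟨s₁ * s₂, fun h => (M.point_isPrime.mem_or_mem h).elim hs₁ hs₂,
      Polynomial.C s₂ * P₁ + Polynomial.C s₁ * P₂, ?_⟩
    rw [Polynomial.map_add, Polynomial.map_mul, Polynomial.map_mul, Polynomial.map_C,
      Polynomial.map_C, h₁, h₂, map_mul, Polynomial.C_mul]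
    ring
  | monomial n d =>
    obtain ⟨a, b, hb, hab⟩ := exists_mul_red_eq M hres0 d
    refine ⟨b, hb, Polynomial.monomial n a, ?_⟩
    rw [Polynomial.map_monomial, Polynomial.C_mul_monomial]
    congr 1
    apply Subtype.ext
    rw [Subring.coe_mul, coe_redD, coe_redD, ← hab, mul_comm]

include hres0 in
/-- A finite sum of monomials with coefficients in the kernel of the reduction is divisible by the
uniformiser, up to a multiplier outside the point. -/
theorem exists_mul_eq_unif_mul_sum (s : Finset ℕ) (f : ℕ → C)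
    (hf : ∀ i ∈ s, M.red (f i) = 0) :
    ∃ y : C, y ∉ M.point ∧ ∃ E : Polynomial C,
      Polynomial.C y * (∑ i ∈ s, Polynomial.monomial i (f i)) =
        Polynomial.C (unifC M) * E := by
  classical
  induction s using Finset.induction_on with
  | empty =>
    refine ⟨1, fun h => M.point_isPrime.ne_top ((Ideal.eq_top_iff_one _).mpr h), 0, ?_⟩
    rw [Finset.sum_empty, mul_zero, mul_zero]
  | insert i s hi ih =>
    obtain ⟨y₀, hy₀, E₀, hE₀⟩ := ih fun j hj => hf j (Finset.mem_insert_of_mem hj)
    have h0 : M.red (f i) = 0 := hf i (Finset.mem_insert_self i s)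
    have hnu : ((f i : C) : F) ∈ O.nonunits := (hres0 _).mp h0
    obtain ⟨y₁, hy₁, e, he⟩ := M.vert (f i) hnu
    replace he : y₁ * f i = unifC M * e := he
    refine ⟨y₀ * y₁, fun h => (M.point_isPrime.mem_or_mem h).elim hy₀ hy₁,
      Polynomial.C y₀ * Polynomial.monomial i e + Polynomial.C y₁ * E₀, ?_⟩
    rw [Finset.sum_insert hi, mul_add, Polynomial.C_mul]
    have h1 : Polynomial.C y₀ * Polynomial.C y₁ * Polynomial.monomial i (f i) =
        Polynomial.C (unifC M) * (Polynomial.C y₀ * Polynomial.monomial i e) := by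
      rw [mul_assoc, Polynomial.C_mul_monomial, he, ← Polynomial.C_mul_monomial]
      ring
    have h2 : Polynomial.C y₀ * Polynomial.C y₁ * (∑ j ∈ s, Polynomial.monomial j (f j)) =
        Polynomial.C (unifC M) * (Polynomial.C y₁ * E₀) := by
      rw [mul_comm (Polynomial.C y₀), mul_assoc, hE₀]
      ring
    rw [h1, h2]
    ring

/-- A polynomial over the model whose reduction vanishes is divisible by the uniformiser, up to a
multiplier outside the point. -/
theorem exists_mul_eq_unif_mul (P : Polynomial C) (hP : P.map (redD M hres0) = 0) :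
    ∃ y : C, y ∉ M.point ∧ ∃ E : Polynomial C,
      Polynomial.C y * P = Polynomial.C (unifC M) * E := by
  have hc : ∀ i ∈ P.support, M.red (P.coeff i) = 0 := by
    intro i _
    have h1 := congrArg (fun p : Polynomial (redRing M hres0) => ((p.coeff i : redRing M hres0) :
      Ft)) hP
    simpa only [Polynomial.coeff_map, coe_redD, Polynomial.coeff_zero, Subring.coe_zero] using h1
  obtain ⟨y, hy, E, hE⟩ := exists_mul_eq_unif_mul_sum M hres0 P.support P.coeff hc
  rw [← Polynomial.as_sum_support] at hE
  exact ⟨y, hy, E, hE⟩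

end Base

variable {K F' F'' k : Type*} [Field K] [Field F'] [Field F''] [Algebra K F'] [Algebra K F'']
  [Algebra F' F''] [IsScalarTower K F' F''] [Algebra.IsIntegral F' F''] [Field k]
  {Ft' Ft'' : Type*} [Field Ft'] [Field Ft''] [Algebra k Ft'] [Algebra k Ft'']
  [Algebra Ft' Ft''] [IsScalarTower k Ft' Ft'']

namespace CoverPoint

variable {A : ValuationSubring K} {π : A →+* k}
  {O' : ValuationSubring F'} {res' : O' →+* Ft'} {Q : Place k Ft'} {T' : Set (Place K F')}
  {t : F'} {C' : Subring F'} {ϖ : K}
  {O'' : ValuationSubring F''} {res'' : O'' →+* Ft''} {Q'' : Place k Ft''}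
  {C'' : Subring F''} {U : F''} {Ψ : Polynomial C'} {c₀ : A}

variable (M' : SmoothModel A π O' res' Q T' t C' ϖ)
  (H : CoverPoint A π O' res' Q O'' res'' Q'' C' C'' U Ψ c₀)
  (hres0 : ∀ x : O', res' x = 0 ↔ (x : F') ∈ O'.nonunits)

/-- The value at `Ū` of the reduction of a polynomial, over the local ring of the reduction. -/
theorem aeval_map_redD (a : Polynomial C') :
    Polynomial.aeval H.Ubar (a.map (redD M' hres0)) = H.red (H.ev a) := by
  rw [Polynomial.aeval_def, Polynomial.eval₂_map, H.red_ev M', Polynomial.eval₂_map]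
  rfl

include H in
/-- The values at `Ū` of the polynomials over the local ring of the reduction are regular at the
point. -/
theorem aeval_Ubar_le (p : Polynomial (redRing M' hres0)) :
    Q''.adicValuation (Polynomial.aeval H.Ubar p) ≤ 1 := by
  rw [← mem_iff_le_one, Polynomial.aeval_def]
  apply eval₂_mem_subring _ Q''.toValuationSubring.toSubring
  · intro d
    apply mem_iff_le_one.mpr
    show Q''.adicValuation (algebraMap Ft' Ft'' (d : Ft')) ≤ 1
    rw [H.lies_le]
    exact redRing_le M' hres0 d
  · exact mem_iff_le_one.mpr H.Ubar_le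

include M' in
/-- Functions of the base model outside the point stay outside the point of the cover. -/
theorem red_incC_eq_one {s : C'} (hs : s ∉ M'.point) :
    Q''.adicValuation (H.red (H.incC s)) = 1 := by
  refine le_antisymm (H.red_incC_le M' s) (not_lt.mp fun hlt => hs ?_)
  rw [H.red_incC M', H.lies_lt] at hlt
  exact hlt

include hres0 in
/-- **`vert`** for the cover. -/
theorem vert_cover
    (hres : ∀ (a : K) (ha : a ∈ A) (h : algebraMap K F' a ∈ O'),
      res' ⟨algebraMap K F' a, h⟩ = algebraMap k Ft' (π ⟨a, ha⟩))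
    (hπ0 : ∀ a : A, A.valuation (a : K) < 1 → π a = 0)
    (x : C'') (hx : H.red x = 0) :
    ∃ y : C'', Q''.adicValuation (H.red y) = 1 ∧ H.incC (unifC M') ∣ y * x := by
  have hD : IsIntegrallyClosed (redRing M' hres0) := redRing_isIntegrallyClosed M' hres0 hres hπ0
  obtain ⟨a, ha⟩ := H.cond' x
  -- the reductions over `D`
  set ΨD : Polynomial (redRing M' hres0) := Ψ.map (redD M' hres0) with hΨD
  set aD : Polynomial (redRing M' hres0) := a.map (redD M' hres0) with haD
  have hΨ0 : Polynomial.aeval H.Ubar ΨD = 0 := by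
    rw [hΨD, H.aeval_map_redD M' hres0, H.ev_root, map_zero]
  have ha0 : Polynomial.aeval H.Ubar aD = 0 := by
    rw [haD, H.aeval_map_redD M' hres0, ← ha, map_mul, hx, mul_zero]
  have hint : IsIntegral (redRing M' hres0) H.Ubar := ⟨ΨD, H.monic.map _, hΨ0⟩
  obtain ⟨h, hh⟩ := minpoly.isIntegrallyClosed_dvd hint hΨ0
  obtain ⟨a₁, ha₁⟩ := minpoly.isIntegrallyClosed_dvd hint ha0
  set g : Polynomial (redRing M' hres0) := minpoly (redRing M' hres0) H.Ubar with hg
  have hg0 : Polynomial.aeval H.Ubar g = 0 := minpoly.aeval _ _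
  -- `h(Ū)` does not vanish at the point
  have hhU : Q''.adicValuation (Polynomial.aeval H.Ubar h) = 1 := by
    have h1 : Polynomial.aeval H.Ubar (derivative ΨD) =
        Polynomial.aeval H.Ubar (derivative g) * Polynomial.aeval H.Ubar h := by
      rw [hh, Polynomial.derivative_mul, map_add, map_mul, map_mul, hg0, zero_mul, add_zero]
    have h2 : Polynomial.aeval H.Ubar (derivative ΨD) = H.red H.dΨ := by
      rw [hΨD, Polynomial.derivative_map, H.aeval_map_redD M' hres0]
      rfl
    have h3 := congrArg Q''.adicValuation h1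
    rw [h2, H.red_dΨ_eq_one M', map_mul] at h3
    refine le_antisymm (H.aeval_Ubar_le M' hres0 h) (not_lt.mp fun hlt => ?_)
    have h4 : Q''.adicValuation (Polynomial.aeval H.Ubar (derivative g)) *
        Q''.adicValuation (Polynomial.aeval H.Ubar h) < 1 :=
      mul_lt_one_of_nonneg_of_lt_one_right (H.aeval_Ubar_le M' hres0 _) zero_le hlt
    rw [← h3] at h4
    exact lt_irrefl _ h4
  -- lifts
  obtain ⟨sg, hsg, G, hG⟩ := exists_lift_poly M' hres0 g
  obtain ⟨sh, hsh, Hh, hHh⟩ := exists_lift_poly M' hres0 h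
  obtain ⟨s₁, hs₁, A₁, hA₁⟩ := exists_lift_poly M' hres0 a₁
  have hk1 : (Polynomial.C (sg * sh) * Ψ - G * Hh).map (redD M' hres0) = 0 := by
    rw [Polynomial.map_sub, Polynomial.map_mul, Polynomial.map_mul, Polynomial.map_C, hG, hHh,
      ← hΨD, hh, map_mul, Polynomial.C_mul]
    ring
  have hk2 : (Polynomial.C (sg * s₁) * a - G * A₁).map (redD M' hres0) = 0 := by
    rw [Polynomial.map_sub, Polynomial.map_mul, Polynomial.map_mul, Polynomial.map_C, hG, hA₁,
      ← haD, ha₁, map_mul, Polynomial.C_mul]
    ring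
  obtain ⟨y₁, hy₁, E₁, hE₁⟩ := exists_mul_eq_unif_mul M' hres0 _ hk1
  obtain ⟨y₂, hy₂, E₂, hE₂⟩ := exists_mul_eq_unif_mul M' hres0 _ hk2
  -- evaluate at the generator
  have e1 := congrArg H.ev hE₁
  have e2 := congrArg H.ev hE₂
  simp only [map_mul, map_sub, H.ev_C, H.ev_root, mul_zero, zero_sub] at e1 e2
  rw [← ha] at e2
  refine ⟨H.incC y₁ * H.incC y₂ * H.incC sg * H.incC s₁ * H.ev Hh * H.dΨ, ?_,
    H.incC y₁ * H.ev Hh * H.ev E₂ - H.incC y₂ * H.ev A₁ * H.ev E₁, ?_⟩
  · have hHhU : Q''.adicValuation (H.red (H.ev Hh)) = 1 := by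
      rw [← H.aeval_map_redD M' hres0, hHh, map_mul, map_mul, hhU, mul_one,
        Polynomial.aeval_C]
      show Q''.adicValuation (algebraMap Ft' Ft'' (M'.red sh)) = 1
      rw [← H.red_incC M']
      exact H.red_incC_eq_one M' hsh
    rw [map_mul, map_mul, map_mul, map_mul, map_mul, map_mul, map_mul, map_mul, map_mul, map_mul,
      H.red_incC_eq_one M' hy₁, H.red_incC_eq_one M' hy₂, H.red_incC_eq_one M' hsg,
      H.red_incC_eq_one M' hs₁, hHhU, H.red_dΨ_eq_one M']
    simp
  · linear_combination (H.incC y₁ * H.ev Hh) * e2 - (H.incC y₂ * H.ev A₁) * e1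

end CoverPoint

end Fermat.Agent.BR3.CoverSmooth
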